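import Fermat.Agent.NewformLocal.Toric.Model

/-!
# Frobenius at a prime exactly dividing the level of a newform

On the plane cut out by a newform the quartic relation `(F² - q²) (F² - 1) = 0` and `det F = q`
force the characteristic polynomial `(X ∓ q) (X ∓ 1)`.
-/

set_option autoImplicit false

noncomputable section

open Polynomial CongruenceSubgroup ModularFormClass Module

namespace Fermat.Agent.NewformLocal.Toric

open GaloisReps (AbsGal FullHecke HeckeGaloisModel matIn toFull)

/-- An endomorphism of determinant `q` of a plane with `(F² - q²) (F² - 1) = 0` has characteristic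
polynomial `(X ∓ q) (X ∓ 1)`. -/
theorem charpoly_eq_of_quartic {O : Type*} [CommRing O] [IsDomain O] {V : Type*} [AddCommGroup V]
    [Module O V] [Module.Free O V] [Module.Finite O V] (hV : finrank O V = 2)
    (F : Module.End O V) (q : O) (hq : q ≠ 0) (hdet : LinearMap.det F = q)
    (h4 : ∀ v, F (F (F (F v) - v)) - q ^ 2 • (F (F v) - v) = 0) :
    LinearMap.charpoly F = X ^ 2 - C (q + 1) * X + C q ∨
      LinearMap.charpoly F = X ^ 2 + C (q + 1) * X + C q := by
  classical
  let b := Module.finBasisOfFinrankEq O V hV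
  set t := (LinearMap.toMatrix b b F).trace with ht
  have hc : LinearMap.charpoly F = X ^ 2 - C t * X + C q := by
    rw [← LinearMap.charpoly_toMatrix F b, Matrix.charpoly_fin_two, LinearMap.det_toMatrix, hdet]
  set v := b 0 with hv
  have hquad : ∀ w, F (F w) = t • F w - q • w := fun w => by
    have h := LinearMap.congr_fun (LinearMap.aeval_self_charpoly F) w
    rw [hc] at h
    simp only [map_add, map_sub, map_mul, aeval_X, aeval_C, LinearMap.add_apply,
      LinearMap.sub_apply, Module.End.mul_apply, Module.algebraMap_end_apply, pow_two,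
      LinearMap.zero_apply] at h
    rw [← sub_eq_zero, ← h]
    abel
  set w := F (F v) with hw
  -- `(t² - (q + 1)²) F² v = 0`
  have h0 : (t ^ 2 - (q + 1) ^ 2) • w = 0 := by
    have h := h4 v
    rw [map_sub, map_sub, ← hw] at h
    have e1 : F (F w) = t • F w - q • w := hquad w
    have e2 : F w = t • w - q • F v := by rw [hw, hquad (F v)]
    have e3 : t • F v = w + q • v := by rw [hw, hquad v]; abel
    rw [← h, e1, e2, smul_sub, smul_smul, smul_comm t q (F v), e3]
    simp only [smul_sub, smul_add, smul_smul, sub_smul]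
    rw [show (q + 1) ^ 2 = q * q + q + q + 1 by ring, pow_two, pow_two]
    simp only [add_smul, one_smul]
    abel
  have hw0 : w ≠ 0 := by
    have hinj : Function.Injective F := by
      refine (injective_iff_map_eq_zero F).mpr fun x hx => ?_
      have h := hquad x
      rw [hx, map_zero, smul_zero, zero_sub, eq_comm, neg_eq_zero, smul_eq_zero] at h
      exact h.resolve_left hq
    intro h
    have hv0 : v = 0 := hinj ((hinj (h.trans (map_zero F).symm)).trans (map_zero F).symm)
    exact b.ne_zero 0 hv0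
  have h6 : t ^ 2 = (q + 1) ^ 2 := sub_eq_zero.mp ((smul_eq_zero.mp h0).resolve_right hw0)
  rcases sq_eq_sq_iff_eq_or_eq_neg.1 h6 with h7 | h7
  · exact Or.inl (by rw [hc, h7])
  · exact Or.inr (by rw [hc, h7, map_neg, neg_mul, sub_neg_eq_add])

variable {N p : ℕ} [NeZero N] [Fact p.Prime]

/-- The characteristic polynomial of a Frobenius element at `q` on the eigen-lattice. -/
theorem charpoly_frobenius_bad {O : Type} [CommRing O] [IsDomain O] [IsDiscreteValuationRing O]
    [CharZero O] (D : HeckeGaloisModel N p) (ι : ℤ_[p] →+* O) (θ : FullHecke N →+* O)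
    (hp : (p : O) ∈ IsLocalRing.maximalIdeal O) {q R : ℕ} [NeZero R] (hq : q.Prime) (hqp : q ≠ p)
    (hR : R ∣ N) (hRq : R * q = N) (hT : QuarticAt D q)
    (t : CuspForm.heckeAlgebra N 2 (levelPrimes N))
    (ht : ∀ f : CuspForm (Gamma0 R) 2, t.1 (Newforms.levelIncl hR f) = 0)
    (hθt : θ (toFull _ t) ≠ 0) {A : ValuationSubring (AlgebraicClosure ℚ)}
    (hA : A.LiesOverPrime q) {σ : AbsGal} (hσ : A.IsFrobeniusAt σ q) :
    LinearMap.charpoly (D.eigenAction ι θ σ) = X ^ 2 - C ((q : O) + 1) * X + C (q : O) ∨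
      LinearMap.charpoly (D.eigenAction ι θ σ) = X ^ 2 + C ((q : O) + 1) * X + C (q : O) := by
  refine charpoly_eq_of_quartic (D.finrank_eigenspace_domain θ) _ _
    (Nat.cast_ne_zero.2 hq.ne_zero)
    (D.det_eigenAction_of_roots ι θ hp fun n ζ hζ => GaloisReps.frobenius_apply_root hA hq hσ hζ
      fun h => hqp ((Nat.prime_dvd_prime_iff_eq hq Fact.out).1 (hq.dvd_of_dvd_pow h))) fun v => ?_
  refine Subtype.ext ?_
  have h0 := congrArg ι.mapMatrix (hT R hR hRq t ht A hA σ hσ)
  have e : ι.mapMatrix ((q : ℤ_[p]) ^ 2 • (D.gal σ * D.gal σ - 1)) =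
      (q : O) ^ 2 • ι.mapMatrix (D.gal σ * D.gal σ - 1) := by
    ext i j
    simp [Matrix.sub_apply]
  rw [map_mul, map_sub, map_mul, e, map_sub, map_mul, map_one, map_zero,
    RingHom.mapMatrix_apply, RingHom.mapMatrix_apply, D.matIn_map] at h0
  have h := congrArg (fun m : Matrix (Fin D.d) (Fin D.d) O => m.mulVec v.1) h0
  simp only [Matrix.zero_mulVec, ← Matrix.mulVec_mulVec] at h
  rw [(GaloisReps.mem_eigenspace D.hecke θ _).1 v.2 (toFull _ t), Matrix.mulVec_smul] at h
  have h' := (smul_eq_zero.1 h).resolve_left hθt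
  simp only [Matrix.sub_mulVec, Matrix.smul_mulVec, ← Matrix.mulVec_mulVec, Matrix.one_mulVec,
    Matrix.mulVec_sub] at h'
  simp only [AddSubgroupClass.coe_sub, SetLike.val_smul, HeckeGaloisModel.coe_eigenAction,
    ZeroMemClass.coe_zero, Matrix.mulVec_sub]
  exact h'

/-- The statement of S35, given models satisfying the quartic relation. -/
theorem exists_rep_of_quartic
    (hD : ∀ (N p : ℕ) [NeZero N] [Fact p.Prime], ∃ D : HeckeGaloisModel N p,
      ∀ q : ℕ, q.Prime → q ≠ p → q ∣ N → ¬ q ^ 2 ∣ N → QuarticAt D q)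
    {M : ℕ} [NeZero M] {g : CuspForm (Gamma0 M) 2} (hg : g.IsNewform)
    (lam : ℕ) [Fact lam.Prime] (S : Finset ℕ)
    (O' : Type) [CommRing O'] [IsDomain O'] [IsDiscreteValuationRing O']
    [IsAdicComplete (IsLocalRing.maximalIdeal O') O'] [Finite (IsLocalRing.ResidueField O')]
    [CharZero O'] (hlamO' : (lam : O') ∈ IsLocalRing.maximalIdeal O')
    (chig : CuspForm.heckeAlgebra M 2 (↑S : Set ℕ) →+* ℂ)
    (hchig : ∀ (ℓ : ℕ) (hℓ : ℓ.Prime) (hℓM : ¬ ℓ ∣ M) (hℓS : ℓ ∉ (↑S : Set ℕ)),
      chig (CuspForm.heckeAlgebra.T hℓ hℓM hℓS) = ModularFormClass.qCoeff g ℓ)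
    (iota : chig.range →+* O')
    (hlamS : lam ∈ S) (hMS : ∀ q : ℕ, q.Prime → q ∣ M → q ∈ S) :
    ∃ (O'' : Type) (_ : CommRing O'') (_ : IsDomain O'') (_ : IsDiscreteValuationRing O'')
      (_ : IsAdicComplete (IsLocalRing.maximalIdeal O'') O'')
      (_ : Finite (IsLocalRing.ResidueField O''))
      (_ : CharZero O'') (_ : Algebra O' O'') (_ : Module.Finite O' O'')
      (_ : IsLocalHom (algebraMap O' O'')),
      Function.Injective (algebraMap O' O'') ∧
      ∃ ρ : GaloisRepAdic O'',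
        (∀ (ℓ : ℕ) (hℓ : ℓ.Prime) (hℓM : ¬ ℓ ∣ M) (hℓS : ℓ ∉ (↑S : Set ℕ)),
          ∀ A : ValuationSubring (AlgebraicClosure ℚ), A.LiesOverPrime ℓ →
            ∀ σ : AlgebraicClosure ℚ ≃ₐ[ℚ] AlgebraicClosure ℚ, A.IsFrobeniusAt σ ℓ →
              LinearMap.charpoly (ρ.ρ σ) =
                X ^ 2 - C (algebraMap O' O''
                  ((iota.comp chig.rangeRestrict) (CuspForm.heckeAlgebra.T hℓ hℓM hℓS))) * X
                  + C ((ℓ : O''))) ∧
        (∀ q : ℕ, q.Prime → q ≠ lam → q ∣ M → ¬ q ^ 2 ∣ M →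
          ∀ A : ValuationSubring (AlgebraicClosure ℚ), A.LiesOverPrime q →
            ∀ σ : AlgebraicClosure ℚ ≃ₐ[ℚ] AlgebraicClosure ℚ, A.IsFrobeniusAt σ q →
              LinearMap.charpoly (ρ.ρ σ) = X ^ 2 - C ((q : O'') + 1) * X + C ((q : O'')) ∨
              LinearMap.charpoly (ρ.ρ σ) = X ^ 2 + C ((q : O'') + 1) * X + C ((q : O''))) := by
  classical
  obtain ⟨D, hDq⟩ := hD M lam
  have : Module.Finite ℤ (FullHecke M) := IntegralStructure.heckeAlgebra_finite M 2 ∅
  set χ₀ := ConductorLevel.eigenChar hg.1 ∅ with hχ₀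
  have hchar : ∀ t, chig t = χ₀ (toFull _ t) := by
    rintro ⟨x, hx⟩
    induction hx using Algebra.adjoin_induction with
    | mem y hy =>
      rcases hy with ⟨ℓ, hℓ, hℓM, hℓS, rfl⟩ | ⟨q, hqM, hq, hqS, rfl⟩
      · exact (hchig ℓ hℓ hℓM hℓS).trans
          (ConductorLevel.eigenChar_T hg.1 hℓ hℓM hℓS).symm
      · exact absurd (hMS q hq hqM) hqS
    | algebraMap z =>
      exact RingHom.congr_fun
        (RingHom.ext_int (chig.comp (algebraMap ℤ _)) ((χ₀.comp (toFull _).toRingHom).comp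
          (algebraMap ℤ _))) z
    | add a b ha hb iha ihb =>
      have h := congrArg₂ (· + ·) iha ihb
      rw [← map_add, ← map_add, ← map_add] at h
      exact h
    | mul a b ha hb iha ihb =>
      have h := congrArg₂ (· * ·) iha ihb
      rw [← map_mul, ← map_mul, ← map_mul] at h
      exact h
  set K := AlgebraicClosure (FractionRing O')
  have hK : CharZero K := by
    have : CharZero (FractionRing O') :=
      charZero_of_injective_algebraMap (IsFractionRing.injective O' (FractionRing O'))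
    exact charZero_of_injective_algebraMap (algebraMap (FractionRing O') K).injective
  obtain ⟨θ, hθ, hθker⟩ := exists_compatible_char (toFull (↑S : Set ℕ)).toRingHom chig χ₀ hchar
    ((algebraMap O' K).comp iota)
  obtain ⟨O'', i1, i2, i3, i4, i5, i6, i7, i8, i9, j, θ', hinj, hjinj, hcomm, hθ'⟩ :=
    GaloisReps.exists_coeffExt O' θ
  have hpO : (lam : O'') ∈ IsLocalRing.maximalIdeal O'' := by
    rw [← map_natCast (algebraMap O' O'') lam]
    exact map_nonunit (algebraMap O' O'') _ hlamO'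
  obtain ⟨ι⟩ := GaloisReps.exists_padicHom O'' hpO
  refine ⟨O'', i1, i2, i3, i4, i5, i6, i7, i8, i9, hinj, D.rep ι θ' hpO, ?_, ?_⟩
  · intro ℓ hℓ hℓM hℓS A hA σ hσ
    have hNp : ¬ ℓ ∣ M * lam := fun h => (hℓ.dvd_mul.mp h).elim hℓM fun h' =>
      hℓS (by rw [(Nat.prime_dvd_prime_iff_eq hℓ Fact.out).mp h']; exact hlamS)
    have e' : θ' (HeckeDuality.heckeOp M 2 ℓ hℓ) = algebraMap O' O''
        ((iota.comp chig.rangeRestrict) (CuspForm.heckeAlgebra.T hℓ hℓM hℓS)) := by
      refine hjinj ?_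
      rw [← RingHom.comp_apply j θ', hθ', ← RingHom.comp_apply j, hcomm,
        ← GaloisReps.toFull_T hℓ hℓM hℓS]
      exact hθ (CuspForm.heckeAlgebra.T hℓ hℓM hℓS)
    rw [← e']
    exact D.charpoly_eigenAction_frobenius ι θ' GaloisReps.frobeniusDensity hpO hℓ hNp hA hσ
  · intro q hq hqlam hqM hq2 A hA σ hσ
    have hR : M / q ∣ M := Nat.div_dvd_of_dvd hqM
    have hRq : M / q * q = M := Nat.div_mul_cancel hqM
    have : NeZero (M / q) := ⟨fun h => NeZero.ne M (by rw [← hRq, h, zero_mul])⟩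
    obtain ⟨t, ht, htg⟩ := exists_killsOld_ne_zero hg hR
      (Nat.div_lt_self (Nat.pos_of_ne_zero (NeZero.ne M)) hq.one_lt).ne
    refine charpoly_frobenius_bad D ι θ' hpO hq hqlam hR hRq (hDq q hq hqlam hqM hq2) t ht
      (fun h0 => ?_) hA hσ
    have h1 : j (θ' (toFull _ t)) = 0 := by rw [h0, map_zero]
    rw [← RingHom.comp_apply, hθ'] at h1
    have h2 := hθker _ h1
    rw [hχ₀, eigenChar_toFull] at h2
    exact htg h2

end Fermat.Agent.NewformLocal.Toric
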