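import Fermat.Agent.Semistable.LocalTheory
import Fermat.Agent.RT.MazurP.Basic
import Fermat.Agent.NewformLocal.Toric.NormRed

/-!
# Frobenius on classes whose norms to level `M` are powers

Let `f` have divisor `m D` at level `q M` and assume that its norm and that of `w f` are `m`-th
powers. Then the reductions `r₀`, `r₁` satisfy `r₀ Φ(r₁), r₁ Φ(r₀) ∈ k · (K^*)^m`, `Φ` the
Frobenius on coefficients, so `Φ²(r_s) / r_s` is a power and the class of `σ² D - D` is toric.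
-/

set_option autoImplicit false
set_option synthInstance.maxHeartbeats 400000
set_option maxHeartbeats 1000000

noncomputable section

namespace Fermat.Agent.NewformLocal.Toric

open AlgebraicCurve ModularCurve Semistable
open RT.MazurP (IsRed)
open Arith (QBar)

variable {A : ValuationSubring QBar} {M : ℕ} [NeZero M] {q : ℕ} [hq : Fact q.Prime]
  [CharP (Res A) q]

omit [NeZero M] in
/-- Maps of coefficients preserve the residual function field. -/
theorem coeffMap_mem_KM (φ : Res A →+* Res A) {z : LaurentSeries (Res A)} (hz : z ∈ KM A M) :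
    coeffMap φ z ∈ KM A M := by
  unfold KM modularFunctionFieldFullC at hz ⊢
  induction hz using IntermediateField.adjoin_induction with
  | mem x hx =>
    obtain ⟨d, hd, hdM, rfl⟩ := hx
    rw [coeffMap_qExpand, coeffMap_jqModC]
    exact jqModCd_mem_full (Res A) M hdM
  | algebraMap c => rw [coeffMap_algebraMap]; exact IntermediateField.algebraMap_mem _ _
  | add x y _ _ h1 h2 => rw [map_add]; exact add_mem h1 h2
  | inv x _ h1 => rw [map_inv₀]; exact inv_mem h1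
  | mul x y _ _ h1 h2 => rw [map_mul]; exact mul_mem h1 h2

omit [CharP (Res A) q] in
/-- The reduction of an `m`-th power at level `M` is an `m`-th power up to a constant. -/
theorem exists_red_eq_pow (hA : A.LiesOverPrime q) (hM : (M : Res A) ≠ 0) {g : FB M} (hg : g ≠ 0)
    {m : ℕ} {z : LaurentSeries (Res A)} (hz : IsRed A ((g : LSer) ^ m) z) :
    ∃ (u : Res A) (ρ : LaurentSeries (Res A)), u ≠ 0 ∧ ρ ∈ KM A M ∧ ρ ≠ 0 ∧
      z = algebraMap (Res A) _ u * ρ ^ m := by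
  obtain ⟨c, hc, h, hne⟩ := exists_scale hA hq.out (mem_fracS_of_mem (A := A) g)
    (fun h0 => hg (Subtype.ext h0))
  have hρ : IsRed A (g : LSer) (redL A ⟨_, h⟩) := ⟨hne, c, hc, h, rfl⟩
  obtain ⟨u, hu, e⟩ := (hρ.pow m).unique hz
  refine ⟨u, _, hu, ?_, hne, e⟩
  have hcg : algebraMap QBar (FB M) c * g ∈ loc2 A (iota1 M) := (mem_loc1 M).mpr h
  exact red1_mem_KM M hM ⟨_, hcg⟩

variable (hqM : ¬ q ∣ M)

include hqM in
/-- The relation between the reductions given by a norm which is a power. -/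
theorem exists_rel_of_norm (hA : A.LiesOverPrime q) (hM : (M : Res A) ≠ 0) {f : FB (q * M)}
    {g : FB M} (hg0 : g ≠ 0) {m : ℕ} (hg : normUp q M f = g ^ m)
    {r₀ r₁ : LaurentSeries (Res A)} (h₀ : IsRed A (f : LSer) r₀)
    (h₁ : IsRed A (wEquiv q M hqM f : LSer) r₁) :
    ∃ (u : Res A) (ρ : LaurentSeries (Res A)), u ≠ 0 ∧ ρ ∈ KM A M ∧ ρ ≠ 0 ∧
      r₀ * coeffMap (frobenius (Res A) q) r₁ = algebraMap (Res A) _ u * ρ ^ m := by
  obtain ⟨hr₀, a, ha0, ha, rfl⟩ := h₀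
  obtain ⟨hr₁, b, hb0, hb, rfl⟩ := h₁
  obtain ⟨hN, hNr⟩ := redL_normUp hqM hA ha hb hr₀ hr₁
  refine exists_red_eq_pow hA hM hg0 (m := m) ⟨mul_ne_zero hr₀ ((_root_.map_ne_zero _).mpr hr₁),
    a * b ^ q, mul_ne_zero ha0 (pow_ne_zero _ hb0), ?_⟩
  have e : ((g : LSer) ^ m) = (normUp q M f : LSer) := by rw [hg]; rfl
  rw [e]
  exact ⟨hN, hNr⟩

variable [FF.IsFunctionField (Res A) (KM A M)]

omit [FF.IsFunctionField (Res A) ↥(KM A M)] in
/-- For a function with norms which are powers, `σ² D - D` is toric up to principal divisors. -/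
theorem exists_hasKummer_frobenius_sq (h : Setup A M q) {σ : Arith.GQ}
    (hσ : A.IsFrobeniusAt σ q) {D : Divisor QBar (FB (q * M))} {m : ℕ} {f : FB (q * M)}
    (hf : f ≠ 0) (hord : ∀ v, v.ord f = (m : ℤ) * D v)
    (hn₀ : ∃ g : FB M, g ≠ 0 ∧ normUp q M f = g ^ m)
    (hn₁ : ∃ g : FB M, g ≠ 0 ∧ normUp q M (wEquiv q M h.hqM f) = g ^ m) :
    ∃ u : FB (q * M), u ≠ 0 ∧ ∃ a : Fin 2 → Res A,
      HasKummer h (galD σ (galD σ D) - D - FF.div QBar u) m a := by
  classical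
  set Φ : LaurentSeries (Res A) →+* LaurentSeries (Res A) :=
    coeffMap (frobenius (Res A) q) with hΦ
  have hL := resLift_of_frobenius (A := A) hσ
  obtain ⟨g₀, hg₀, hN₀⟩ := hn₀
  obtain ⟨g₁, hg₁, hN₁⟩ := hn₁
  -- reductions of the two sides
  have hex : ∀ s, ∃ r, IsRed A (iota2 M q h.hqM s f) r := fun s =>
    IsRed.exists_of_ne_zero h.hA hq.out (iota2_fracS M q h.hqM s f) ((_root_.map_ne_zero _).mpr hf)
  choose r hr using hex
  have hrK : ∀ s, r s ∈ KM A M := fun s => RT.MazurP.isRed_mem_KM q M h.hqM h.hA h.hM (hr s)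
  obtain ⟨u₀, ρ₀, hu₀, hρ₀, hρ₀0, e₀⟩ :=
    exists_rel_of_norm h.hqM h.hA h.hM hg₀ hN₀ (hr 0) (hr 1)
  obtain ⟨u₁, ρ₁, hu₁, hρ₁, hρ₁0, e₁⟩ :=
    exists_rel_of_norm h.hqM h.hA h.hM hg₁ hN₁ (r₀ := r 1) (r₁ := r 0) (hr 1)
      (by rw [wEquiv_wEquiv]; exact hr 0)
  -- `Φ² r / r` is a power
  have key : ∀ (x y ρ ρ' : LaurentSeries (Res A)) (v v' : Res A), x ≠ 0 → y ≠ 0 → ρ ≠ 0 → v ≠ 0 →
      x * Φ y = algebraMap (Res A) _ v * ρ ^ m → y * Φ x = algebraMap (Res A) _ v' * ρ' ^ m →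
      Φ (Φ x) / x = algebraMap (Res A) _ (frobenius (Res A) q v' / v) * (Φ ρ' / ρ) ^ m := by
    intro x y ρ ρ' v v' hx hy hρ hv h1 h2
    have h3 := congrArg Φ h2
    rw [map_mul, map_mul, map_pow, hΦ, coeffMap_algebraMap] at h3
    rw [← hΦ] at h3
    have hy' : Φ y ≠ 0 := (_root_.map_ne_zero _).mpr hy
    have hv' : algebraMap (Res A) (LaurentSeries (Res A)) v ≠ 0 :=
      (_root_.map_ne_zero _).mpr hv
    have hρm : ρ ^ m ≠ 0 := pow_ne_zero _ hρ
    rw [map_div₀, div_pow, div_mul_div_comm, ← h3, ← h1, div_eq_div_iff hx (mul_ne_zero hx hy')]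
    ring
  have hH : ∀ s : Fin 2, ∃ (v : Res A) (H : LaurentSeries (Res A)), v ≠ 0 ∧ H ∈ KM A M ∧ H ≠ 0 ∧
      Φ (Φ (r s)) / r s = algebraMap (Res A) _ v * H ^ m := by
    intro s
    fin_cases s
    · exact ⟨_, _, div_ne_zero ((_root_.map_ne_zero _).mpr hu₁) hu₀,
        div_mem (coeffMap_mem_KM _ hρ₁) hρ₀,
        div_ne_zero ((_root_.map_ne_zero _).mpr hρ₁0) hρ₀0,
        key _ _ ρ₀ ρ₁ u₀ u₁ (hr 0).1 (hr 1).1 hρ₀0 hu₀ e₀ e₁⟩
    · exact ⟨_, _, div_ne_zero ((_root_.map_ne_zero _).mpr hu₀) hu₁,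
        div_mem (coeffMap_mem_KM _ hρ₀) hρ₁,
        div_ne_zero ((_root_.map_ne_zero _).mpr hρ₀0) hρ₁0,
        key _ _ ρ₁ ρ₀ u₁ u₀ (hr 1).1 (hr 0).1 hρ₁0 hu₁ e₁ e₀⟩
  choose v H hv hHK hH0 hHeq using hH
  obtain ⟨u, hu⟩ := red2_surjective M q h.hqM h.hM (hHK 0) (hHK 1)
  have hus : ∀ s, red2 A (iota2 M q h.hqM) u s = H s := fun s => by
    rw [hu]; fin_cases s <;> rfl
  have hu0 : (u : FB (q * M)) ≠ 0 := fun h0 => hH0 0 (by
    rw [← hus, show u = 0 from Subtype.ext h0, map_zero]; rfl)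
  obtain ⟨hui, huir⟩ := inv_mem_loc2 (iota2 M q h.hqM) u (fun s => by rw [hus]; exact hH0 s)
  -- the Kummer function
  set σf := galF (q * M) σ (galF (q * M) σ f) with hσf
  set F₁ : FB (q * M) := σf / f * ((u : FB (q * M))⁻¹) ^ m with hF₁
  have hσf0 : σf ≠ 0 := (_root_.map_ne_zero _).mpr ((_root_.map_ne_zero _).mpr hf)
  have hsig : ∀ (s : Fin 2) (x : FB (q * M)), iota2 M q h.hqM s (galF (q * M) σ x) =
      coeffMap (σ : QBar →+* QBar) (iota2 M q h.hqM s x) := by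
    intro s x
    fin_cases s
    · exact coe_arithmeticRingAut σ x
    · refine (iota2_one M q h.hqM _).trans ?_
      rw [wEquiv_galois, coe_arithmeticRingAut]
      exact congrArg _ (iota2_one M q h.hqM x).symm
  have hside : ∀ s, ∃ (b : Res A) (hm : iota2 M q h.hqM s F₁ ∈ locS A),
      b ≠ 0 ∧ redL A ⟨_, hm⟩ = algebraMap (Res A) _ b := by
    intro s
    obtain ⟨hr0, c, hc, hcy, hcr⟩ := hr s
    obtain ⟨hy₁, hy₁r⟩ := hL.redL_coeffMap hcy
    obtain ⟨hy₂, hy₂r⟩ := hL.redL_coeffMap hy₁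
    obtain ⟨hi, hi'⟩ := inv_mem_locS hcy (by rw [hcr]; exact hr0)
    have hu' : (iota2 M q h.hqM s ((u : FB (q * M))⁻¹)) ∈ locS A := (mem_loc2 _).mp hui s
    have hval : A.valuation (c / σ (σ c)) = 1 := by
      rw [map_div₀, hL.valuation_eq, hL.valuation_eq, div_self ((Valuation.ne_zero_iff _).mpr hc)]
    have hκ : c / σ (σ c) ∈ A := (A.valuation_le_one_iff _).mp hval.le
    have hκ' : IsLocalRing.residue A ⟨c / σ (σ c), hκ⟩ ≠ 0 := fun h0 =>
      ((ValuationSubring.mem_nonunits_iff A).mp ((residue_eq_zero_iff hκ).mp h0)).ne hval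
    have e : iota2 M q h.hqM s F₁ = ((⟨_, algebraMap_mem_locS hκ⟩ *
        (⟨_, hy₂⟩ * ⟨_, hi⟩) * ⟨_, hu'⟩ ^ m : locS A) : LSer) := by
      show _ = algebraMap QBar LSer (c / σ (σ c)) *
        (coeffMap (σ : QBar →+* QBar) (coeffMap (σ : QBar →+* QBar)
          (algebraMap QBar LSer c * iota2 M q h.hqM s f)) *
          (algebraMap QBar LSer c * iota2 M q h.hqM s f)⁻¹) *
        iota2 M q h.hqM s ((u : FB (q * M))⁻¹) ^ m
      rw [hF₁, map_mul, map_pow, map_div₀, hσf, hsig, hsig, map_mul (coeffMap _),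
        map_mul (coeffMap _), coeffMap_algebraMap, coeffMap_algebraMap, map_div₀]
      have h1 : algebraMap QBar LSer c ≠ 0 := (_root_.map_ne_zero _).mpr hc
      have h2 : algebraMap QBar LSer (σ (σ c)) ≠ 0 :=
        (_root_.map_ne_zero _).mpr ((_root_.map_ne_zero σ).mpr ((_root_.map_ne_zero σ).mpr hc))
      have h3 : iota2 M q h.hqM s f ≠ 0 := (_root_.map_ne_zero _).mpr hf
      simp only [RingHom.coe_coe]
      field_simp
    have hred_u : redL A ⟨_, hu'⟩ = (H s)⁻¹ := by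
      rw [← hus s, ← huir s, red2_apply]
    refine ⟨IsLocalRing.residue A ⟨c / σ (σ c), hκ⟩ * v s, e ▸ SetLike.coe_mem _,
      mul_ne_zero hκ' (hv s), ?_⟩
    rw [redL_congr _ (SetLike.coe_mem _) e]
    change redL A (_ * _ ^ m) = _
    rw [map_mul, map_mul, map_mul, map_pow, redL_algebraMap hκ, hy₂r, hy₁r, hi', hcr, hred_u,
      ← hΦ, inv_pow, mul_assoc, ← div_eq_mul_inv (Φ (Φ (r s))), hHeq s,
      mul_assoc (algebraMap (Res A) (LaurentSeries (Res A)) (v s)),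
      mul_inv_cancel₀ (pow_ne_zero _ (hH0 s)), mul_one, map_mul]
  choose b hm hb0 hbr using hside
  refine ⟨(u : FB (q * M)), hu0, b, hb0, ⟨F₁, (mem_loc2 _).mpr hm⟩, fun w => ?_, fun s => hbr s⟩
  show w.ord F₁ = _
  rw [hF₁, w.ord_mul (div_ne_zero hσf0 hf) (pow_ne_zero _ (inv_ne_zero hu0)), FF.ord_pow,
    w.ord_inv, FF.ord_div w hσf0 hf, hσf, ord_galF σ (ord_galF σ hord) w, hord w,
    Finsupp.sub_apply, Finsupp.sub_apply, JacTorsion.div_apply]
  ring

end Fermat.Agent.NewformLocal.Toric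

end
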