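import Fermat.Agent.Semistable.General
import Fermat.Agent.NewformLocal.Toric.Frobenius
import Fermat.Agent.NewformLocal.Toric.Transfer

/-!
# Frobenius on classes killed by both degeneracy operators, at an arbitrary level

Pull back to a level where the genus does not drop; the norms to level `M` commute with pullback.
-/

set_option autoImplicit false
set_option synthInstance.maxHeartbeats 400000
set_option maxHeartbeats 1000000

noncomputable section

namespace Fermat.Agent.NewformLocal.Toric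

open ModularCurve AlgebraicCurve Semistable
open Arith (QBar)

variable {M M' q : ℕ} [NeZero M] [NeZero M'] [hq : Fact q.Prime]

/-- `w` commutes with the inclusion of levels, on expansions. -/
theorem coe_wEquiv_levelIncF (hMM : M ∣ M') (hqM : ¬ q ∣ M) (hqM' : ¬ q ∣ M') (x : FB (q * M)) :
    (wEquiv q M' hqM' (levelIncF (mul_dvd_mul_left q hMM) x) : LSer) =
      (wEquiv q M hqM x : LSer) := by
  set φ := levelIncF (n := q * M) (n' := q * M') (mul_dvd_mul_left q hMM)
  have h : ((FB (q * M')).val.comp ((wEquiv q M' hqM').toAlgHom.comp φ)).toRingHom =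
      ((FB (q * M)).val.comp (wEquiv q M hqM).toAlgHom).toRingHom := by
    refine fb_ringHom_ext (fun a => ?_) fun d => ?_
    · simp
    show (wEquiv q M' hqM' (φ (genF _ d)) : LSer) = (wEquiv q M hqM (genF _ d) : LSer)
    obtain ⟨d, hd⟩ := d
    rcases dvs_cases q M hq.out hd with hdM | ⟨d', hd', rfl⟩
    · have : NeZero d := ⟨fun h => NeZero.ne M (Nat.eq_zero_of_zero_dvd (h ▸ hdM))⟩
      have hd4 : d ∣ M' := hdM.trans hMM
      rw [show φ (genF _ ⟨d, hd⟩) = genF (q * M') ⟨d, dvd_mul_of_dvd_right hd4 q⟩ from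
          Subtype.ext ((coe_levelIncF _ _).trans (by rw [coe_genF, coe_genF]; rfl)),
        wEquiv_gen_of_dvd q M' hqM' hd4, wEquiv_gen_of_dvd q M hqM hdM]
    · have : NeZero d' := ⟨fun h => NeZero.ne M (Nat.eq_zero_of_zero_dvd (h ▸ hd'))⟩
      have hd4 : d' ∣ M' := hd'.trans hMM
      rw [show φ (genF _ ⟨q * d', hd⟩) = genF (q * M') ⟨q * d', mul_dvd_mul_left q hd4⟩ from
          Subtype.ext ((coe_levelIncF _ _).trans (by rw [coe_genF, coe_genF]; rfl)),
        wEquiv_gen_mul q M' hqM' hd4, wEquiv_gen_mul q M hqM hd']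
  exact DFunLike.congr_fun h x

/-- The norm commutes with the inclusion of levels. -/
theorem normUp_levelIncF (hMM : M ∣ M') (hqM : ¬ q ∣ M) (hqM' : ¬ q ∣ M') (x : FB (q * M)) :
    normUp q M' (levelIncF (mul_dvd_mul_left q hMM) x) = levelIncF hMM (normUp q M x) := by
  obtain ⟨ζ₀, hζ₀⟩ := HasEnoughRootsOfUnity.exists_primitiveRoot QBar q
  set ζ : QBarˣ := (hζ₀.isUnit hq.out.ne_zero).unit with hζdef
  have hζ : IsPrimitiveRoot ζ q := IsPrimitiveRoot.coe_units_iff.mp (by simpa [hζdef] using hζ₀)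
  refine Subtype.ext (qExpand_injective q ?_)
  rw [qExpand_normUp q M' hqM' hζ, coe_levelIncF, coe_levelIncF, coe_wEquiv_levelIncF hMM hqM hqM',
    qExpand_normUp q M hqM hζ]

/-- **`(σ² - q²) (σ² - 1)` kills, up to a bounded exponent, the classes killed by both degeneracy
operators.** -/
theorem exists_frobenius_quartic {L : ℕ} [NeZero L] (hL : L = q * M) (hqM : ¬ q ∣ M) :
    ∃ e : ℕ, e ≠ 0 ∧ ∀ C S W, IsDegeneracySystems q M L C S W →
      ∀ A : ValuationSubring QBar, A.LiesOverPrime q →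
        ∀ σ : Arith.GQ, A.IsFrobeniusAt σ q → ∀ (m : ℕ) [NeZero m], ¬ q ∣ m →
          ∀ y : Pic0.torsion QBar (FB L) m,
            C.apply (JacTorsion.torsionEquiv L m y).1 = 0 →
            S.apply (JacTorsion.torsionEquiv L m y).1 = 0 →
              e • (σ • σ • (σ • σ • (y : JZero L) - (y : JZero L)) -
                (q ^ 2) • (σ • σ • (y : JZero L) - (y : JZero L))) = 0 := by
  subst hL
  obtain ⟨c, hc, hqc⟩ : ∃ c, (c = 4 ∨ c = 9) ∧ ¬ q ∣ c := by
    by_cases h2 : q = 2
    · exact ⟨9, Or.inr rfl, by subst h2; decide⟩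
    · refine ⟨4, Or.inl rfl, fun h => h2 ?_⟩
      exact (Nat.prime_dvd_prime_iff_eq hq.out Nat.prime_two).mp
        (hq.out.dvd_of_dvd_pow (show q ∣ 2 ^ 2 from h))
  have : NeZero (M * c) :=
    ⟨Nat.mul_ne_zero (NeZero.ne M) (by rcases hc with rfl | rfl <;> norm_num)⟩
  have hqM' : ¬ q ∣ M * c := fun h => ((Nat.Prime.dvd_mul hq.out).mp h).elim hqM hqc
  let φ := levelIncF (n := q * M) (n' := q * (M * c)) (mul_dvd_mul_left q (dvd_mul_right M c))
  have hφ := FF.isIntegralAlong φ
  refine ⟨finrankAlong QBar φ, (FF.finrankAlong_pos φ).ne', ?_⟩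
  intro C S W hsys A hA σ hσ m _ hmq y hC hS
  obtain ⟨f, rfl⟩ := JacTorsion.toTorsion_surjective y
  obtain ⟨⟨g₀, hg₀, hn₀⟩, ⟨g₁, hg₁, hn₁⟩⟩ := exists_norms_eq_pow hqM hsys f.toMul hC hS
  set x : FB (q * M) := ((f.toMul : (FB (q * M))ˣ) : FB (q * M))
  have : CharP (Res A) q := Arith.residueField_charP hA hq.out
  have hM' : ((M * c : ℕ) : Res A) ≠ 0 := by rwa [Ne, CharP.cast_eq_zero_iff (Res A) q]
  have := isFunctionField_KM (A := A) hM'
  have hSet : Setup A (M * c) q := ⟨hA, hqM', hM', goodM_of_dvd hc (dvd_mul_left c M) hM'⟩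
  set g := arithmeticGalois (modularFunctionFieldFull (q * M)) σ
  set D : Divisor QBar (FB (q * M)) := JacTorsion.divQuot f.toMul with hD
  set d : Divisor.degZero (K := QBar) (F := FB (q * M)) :=
    ⟨D, JacTorsion.divQuot_mem_degZero f.toMul⟩
  -- the pulled back Kummer function
  set D' := Divisor.pullbackAlong φ hφ D with hD'
  have hord : ∀ v : Place QBar (FB (q * (M * c))), v.ord (φ x) = (m : ℤ) * D' v := fun v => by
    have hpull : Divisor.pullbackAlong φ hφ (FF.div QBar x) v = v.ord (φ x) := by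
      let := algebraAlong φ
      have := isScalarTower_along φ
      have := isIntegral_along φ hφ
      exact Divisor.pullback_apply_eq_ord (fun u => JacTorsion.div_apply _ u) v
    rw [← hpull, ← JacTorsion.smul_divQuot f.toMul, map_zsmul, Finsupp.smul_apply, smul_eq_mul]
  have hn₀' : ∃ g' : FB (M * c), g' ≠ 0 ∧ normUp q (M * c) (φ x) = g' ^ m :=
    ⟨levelIncF (dvd_mul_right M c) g₀, (_root_.map_ne_zero _).mpr hg₀, by
      rw [normUp_levelIncF (dvd_mul_right M c) hqM hqM', hn₀, map_pow]⟩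
  have hn₁' : ∃ g' : FB (M * c), g' ≠ 0 ∧
      normUp q (M * c) (wEquiv q (M * c) hqM' (φ x)) = g' ^ m :=
    ⟨levelIncF (dvd_mul_right M c) g₁, (_root_.map_ne_zero _).mpr hg₁, by
      rw [show wEquiv q (M * c) hqM' (φ x) = φ (wEquiv q M hqM x) from
          Subtype.ext ((coe_wEquiv_levelIncF (dvd_mul_right M c) hqM hqM' x).trans
            (coe_levelIncF _ _).symm),
        normUp_levelIncF (dvd_mul_right M c) hqM hqM', hn₁, map_pow]⟩
  obtain ⟨u, hu, a, hk⟩ := exists_hasKummer_frobenius_sq hSet hσ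
    ((_root_.map_ne_zero φ).mpr (Units.ne_zero _)) hord hn₀' hn₁'
  have h1 := hSet.frobenius_sq_principal hσ (NeZero.ne m) hmq hk
  set g' := arithmeticGalois (modularFunctionFieldFull (q * (M * c))) σ
  have hdu : FF.div QBar u ∈ Divisor.principal (K := QBar) (F := FB (q * (M * c))) :=
    ⟨u, hu, fun v => JacTorsion.div_apply _ _⟩
  have h2 : galD σ (galD σ (galD σ (galD σ D') - D')) - (q ^ 2) • (galD σ (galD σ D') - D') ∈
      Divisor.principal (K := QBar) (F := FB (q * (M * c))) := by
    have h3 := add_mem h1 (sub_mem (SemilinearAut.smul_mem_principal g'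
      (SemilinearAut.smul_mem_principal g' hdu)) (nsmul_mem hdu (q ^ 2)))
    convert h3 using 1
    simp only [galD, g', smul_sub]
    abel
  have e : galD σ (galD σ (galD σ (galD σ D') - D')) - (q ^ 2) • (galD σ (galD σ D') - D') =
      Divisor.pullbackAlong φ hφ
        (galD σ (galD σ (galD σ (galD σ D) - D)) - (q ^ 2) • (galD σ (galD σ D) - D)) := by
    simp only [hD', galD, map_sub, map_nsmul, smul_sub, GaloisReps.pullbackAlong_smul
      (arithmeticGalois (modularFunctionFieldFull (q * M)) σ)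
      (arithmeticGalois (modularFunctionFieldFull (q * (M * c))) σ) φ hφ
      (fun x => levelIncF_galois _ σ x)]
  rw [e] at h2
  have h4 := Divisor.isPrincipal_pushforwardAlong φ hφ (FF.finiteAlong φ)
    (FF.normFormulaAlong φ (FF.finiteAlong φ)) h2
  have h5 : ∀ E : Divisor QBar (FB (q * M)), Divisor.pushforwardAlong φ hφ
      (Divisor.pullbackAlong φ hφ E) = finrankAlong QBar φ • E := fun E => by
    let := algebraAlong φ
    have := isScalarTower_along φ
    have := isIntegral_along φ hφ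
    have : FiniteDimensional (FB (q * M)) (FB (q * (M * c))) := FF.finiteAlong φ
    exact pushforward_pullback (K := QBar) (F' := FB (q * (M * c))) _
  rw [h5] at h4
  set G := SemilinearAut.degZeroSMulHom (K := QBar) (F := FB (q * M)) g
  show finrankAlong QBar φ • (Pic0.mk (G (G (G (G d) - d))) -
    (q ^ 2) • Pic0.mk (G (G d) - d)) = 0
  refine (QuotientAddGroup.eq_zero_iff
    (finrankAlong QBar φ • (G (G (G (G d) - d)) - (q ^ 2) • (G (G d) - d)))).mpr ?_
  rw [AddSubgroup.mem_addSubgroupOf]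
  exact h4

end Fermat.Agent.NewformLocal.Toric

end
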