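import Fermat.Agent.GaloisReps.Results
import Fermat.Agent.NewformLocal.Assembly
import Fermat.Agent.NewformLocal.Toric.Homs
import Fermat.Agent.NewformLocal.Toric.Descent

/-!
# The quartic relation for Frobenius on the completed lattice

A bounded exponent disappears on the torsion free completed lattice: if `t` kills the forms of
level `N / q`, then `(σ² - q²) (σ² - 1) t = 0`.
-/

set_option autoImplicit false

noncomputable section

open CongruenceSubgroup ModularCurve

namespace Fermat.Agent.NewformLocal.Toric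

open GaloisReps (AbsGal HeckeGaloisModel matIn toFull modelOfCongruence CongruenceProperty)

/-- For `t` killing the forms of level `N / q`, `(σ² - q²) (σ² - 1) t = 0`. -/
def QuarticAt {N p : ℕ} [NeZero N] [Fact p.Prime] (D : HeckeGaloisModel N p) (q : ℕ) : Prop :=
  ∀ (R : ℕ) [NeZero R] (hR : R ∣ N), R * q = N →
    ∀ t : CuspForm.heckeAlgebra N 2 (levelPrimes N),
      (∀ f : CuspForm (Gamma0 R) 2, t.1 (Newforms.levelIncl hR f) = 0) →
        ∀ A : ValuationSubring (AlgebraicClosure ℚ), A.LiesOverPrime q →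
          ∀ σ : AbsGal, A.IsFrobeniusAt σ q →
            (D.gal σ * D.gal σ * (D.gal σ * D.gal σ - 1) -
                (q : ℤ_[p]) ^ 2 • (D.gal σ * D.gal σ - 1)) *
              matIn D.hecke ℤ_[p] (toFull _ t) = 0

/-- Torsion points moved by `t` are killed by both degeneracy operators. -/
theorem torsion_degeneracy_eq_zero {q R p : ℕ} [NeZero R] [NeZero (R * q)] [Fact p.Prime]
    (h : LevelRaising.RaiseData q R)
    (t : CuspForm.heckeAlgebra (R * q) 2 (levelPrimes (R * q)))
    (ht : ∀ f : CuspForm (Gamma0 R) 2, t.1 (Newforms.levelIncl (dvd_mul_right R q) f) = 0)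
    (n : ℕ) [NeZero (p ^ n)] (y : GaloisReps.JTors (R * q) p n)
    (v : Fin (2 * Gamma0.genus (R * q)) → ZMod (p ^ n))
    (hy : (GaloisReps.torsionIso (R * q) p (GaloisReps.conjProperty (R * q))).psi n y =
      ((GaloisReps.latticeMat _ (toFull _ t)).map (Int.castRingHom (ZMod (p ^ n)))).mulVec v) :
    h.corSys.apply (JacTorsion.torsionEquiv (R * q) (p ^ n) y).1 = 0 ∧
      h.starSys.apply (JacTorsion.torsionEquiv (R * q) (p ^ n) y).1 = 0 := by
  set E := GaloisReps.torsionIso (R * q) p (GaloisReps.conjProperty (R * q))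
  obtain ⟨hcor, hstar⟩ := degeneracy_eq_zero h t ht (B := ZMod (p ^ n)) (φ := (E.e n y).1)
    (E.e n y).2 v hy
  have hat : GaloisReps.atkinHom _ (ZMod (p ^ n)) (E.e n y).1 =
      (JacTorsion.torsionEquiv (R * q) (p ^ n) y).1 := GaloisReps.atkinHom_atkinHom _
  rw [hat] at hcor hstar
  exact ⟨hcor, hstar⟩

set_option maxHeartbeats 1600000 in
theorem quarticAt_modelOfCongruence {N p : ℕ} [NeZero N] [Fact p.Prime]
    (hES : CongruenceProperty N p) {q : ℕ} (hq : q.Prime) (hqp : q ≠ p) (hq2 : ¬ q ^ 2 ∣ N) :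
    QuarticAt (modelOfCongruence hES) q := by
  intro R _ hR hRq t ht A hA σ hσ
  subst hRq
  have : Fact q.Prime := ⟨hq⟩
  have hqR : ¬ q ∣ R := fun h => hq2 (by rw [pow_two]; exact mul_dvd_mul_right h q)
  have h : LevelRaising.RaiseData q R := ⟨hq, hqR⟩
  obtain ⟨e, he, hquart⟩ := exists_frobenius_quartic (q := q) (M := R) (mul_comm R q) hqR
  have hsys' : IsDegeneracySystems q R (R * q) h.corSys h.starSys h.wSys :=
    ⟨fun _ => rfl, fun _ => rfl, rfl, fun φ => h.cor_w φ⟩
  set E := GaloisReps.torsionIso (R * q) p (GaloisReps.conjProperty (R * q))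
  set L := GaloisReps.latticeMat (R * q) (toFull _ t) with hL
  show (E.gal σ * E.gal σ * (E.gal σ * E.gal σ - 1) -
      (q : ℤ_[p]) ^ 2 • (E.gal σ * E.gal σ - 1)) * L.map (Int.castRingHom ℤ_[p]) = 0
  have key : (e : ℤ_[p]) • ((E.gal σ * E.gal σ * (E.gal σ * E.gal σ - 1) -
      (q : ℤ_[p]) ^ 2 • (E.gal σ * E.gal σ - 1)) * L.map (Int.castRingHom ℤ_[p])) = 0 := by
    refine GaloisReps.ext_of_forall_toZModPow fun n => ?_
    have : NeZero (p ^ n) := ⟨pow_ne_zero n (Fact.out : p.Prime).ne_zero⟩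
    show (PadicInt.toZModPow n).mapMatrix _ = (PadicInt.toZModPow n).mapMatrix 0
    have eL : (PadicInt.toZModPow n).mapMatrix (L.map (Int.castRingHom ℤ_[p])) =
        L.map (Int.castRingHom (ZMod (p ^ n))) := by
      ext i j; simp
    rw [map_zero, Nat.cast_smul_eq_nsmul, map_nsmul, map_mul, eL, map_sub, ← Nat.cast_pow,
      Nat.cast_smul_eq_nsmul, map_nsmul, map_mul, map_sub, map_mul, map_one,
      RingHom.mapMatrix_apply, E.map_gal]
    refine Matrix.toLin'.injective (LinearMap.ext fun v => ?_)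
    rw [Matrix.toLin'_apply, map_zero, LinearMap.zero_apply, Matrix.smul_mulVec,
      ← Matrix.mulVec_mulVec]
    obtain ⟨y, hy⟩ := (E.psi n).surjective ((L.map (Int.castRingHom (ZMod (p ^ n)))).mulVec v)
    rw [← hy]
    obtain ⟨hcor, hstar⟩ := torsion_degeneracy_eq_zero h t ht n y v hy
    have hx := hquart h.corSys h.starSys h.wSys hsys' A hA σ hσ (p ^ n)
      (fun hd => hqp ((Nat.prime_dvd_prime_iff_eq hq Fact.out).1 (hq.dvd_of_dvd_pow hd)))
      y hcor hstar
    set γ := GaloisReps.galTors (N := R * q) (p := p) n σ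
    have hy0 : e • (γ (γ (γ (γ y) - y)) - (q ^ 2) • (γ (γ y) - y)) = 0 := Subtype.ext hx
    have hy' := congrArg (E.psi n) hy0
    rw [map_nsmul, map_sub, map_nsmul, ← E.galLvl_mulVec, ← E.galLvl_mulVec, map_sub,
      ← E.galLvl_mulVec, ← E.galLvl_mulVec, map_zero] at hy'
    simpa only [Matrix.sub_mulVec, Matrix.one_mulVec, Matrix.smul_mulVec, ← Matrix.mulVec_mulVec,
      Matrix.mulVec_sub] using hy'
  exact (smul_eq_zero.1 key).resolve_left (Nat.cast_ne_zero.2 he)

end Fermat.Agent.NewformLocal.Toric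

end
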